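import Mathlib
import Fermat.Agent.LT.A2.H904.LiftBddSpec

/-!
# Row LT, tower A2, sub-leaf A2.03.4.3 `H904.CharIntZeroC` (helper362), OFF-MAIN

The torus character `χT` is integrable on the fundamental domain `DT` of `T¹(K)` in `T¹(𝔸_K)` and
its integral vanishes.

Proof (as in the doc-comment of the Prop).  `‖χT‖ = 1` on the torus (`fin_order`), `χT` is
continuous on the torus, `DT` is Borel and of finite measure, so `χT` is integrable on `DT`.
The countable group `Γ = T¹(K)` acts on `GL₂(𝔸_K)` by left translations preserving `μT`; `DT` and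
`m' DT` (`m' ∈ T¹(𝔸_K)`) are fundamental domains (`dom_fund`, `carried`, commutativity of the
torus), and `1_{T¹} χT` is `Γ`-invariant, hence
`χT(m') ∫_{DT} χT = ∫_{m' DT} χT = ∫_{DT} χT`, and `χT(m') ≠ 1` for some `m'`.

No hole; Mathlib + the Spec closure (`LiftBddSpec.lean` of helper904, byte-identical copy).
The hypothesis `T1.LocCompC K` is not used.
-/

set_option autoImplicit false

open IsDedekindDomain NumberField AutomorphicForm MeasureTheory
open scoped MatrixGroups Topology Pointwise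

noncomputable section

namespace Fermat.Agent.LT.A2.H362

open Fermat.Agent.LT.H130 Fermat.Agent.LT.H556 Fermat.Agent.LT.A2

/-! ## Algebra of the torus matrices -/

section Algebra

variable {R : Type*} [CommRing R]

theorem torMat_mul362 (t n a b a' b' : R) :
    torMat t n a b * torMat t n a' b'
      = torMat t n (a * a' - n * b * b') (a * b' + a' * b + t * b * b') := by
  unfold torMat
  ext i j
  fin_cases i <;> fin_cases j <;> simp [Matrix.mul_apply, Fin.sum_univ_two] <;> ring

theorem torMat_one362 (t n : R) : torMat t n 1 0 = 1 := by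
  unfold torMat
  ext i j
  fin_cases i <;> fin_cases j <;> simp

theorem torMat_comm362 (t n a b a' b' : R) :
    torMat t n a b * torMat t n a' b' = torMat t n a' b' * torMat t n a b := by
  rw [torMat_mul362, torMat_mul362]
  congr 1 <;> ring

theorem torMat_det362 (t n a b : R) :
    (torMat t n a b).det = a ^ 2 + t * a * b + n * b ^ 2 := by
  unfold torMat
  rw [Matrix.det_fin_two_of]
  ring

theorem torMat_mul_adj362 (t n a b : R) (h : (torMat t n a b).det = 1) :
    torMat t n a b * torMat t n (a + t * b) (-b) = 1 := by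
  rw [torMat_det362] at h
  rw [torMat_mul362, ← torMat_one362 t n]
  congr 1
  · rw [← h]; ring
  · ring

end Algebra

/-! ## The torus inside `GL₂(𝔸_K)` -/

section Torus

variable {K : Type} [Field K] [NumberField K] (t n : K)

theorem det_val362 (m : A0.G K) :
    ((Matrix.GeneralLinearGroup.det m : (A0.Adl K)ˣ) : A0.Adl K)
      = (m : Matrix (Fin 2) (Fin 2) (A0.Adl K)).det := rfl

theorem inTorus_one362 : InTorus t n (1 : A0.G K) :=
  ⟨1, 0, by rw [Units.val_one, torMat_one362]⟩

theorem inTorus_mul362 {m m' : A0.G K} (h : InTorus t n m) (h' : InTorus t n m') :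
    InTorus t n (m * m') := by
  obtain ⟨a, b, hm⟩ := h
  obtain ⟨a', b', hm'⟩ := h'
  exact ⟨_, _, by rw [Units.val_mul, hm, hm', torMat_mul362]⟩

theorem inTorus_comm362 {m m' : A0.G K} (h : InTorus t n m) (h' : InTorus t n m') :
    m * m' = m' * m := by
  obtain ⟨a, b, hm⟩ := h
  obtain ⟨a', b', hm'⟩ := h'
  apply Units.ext
  rw [Units.val_mul, Units.val_mul, hm, hm', torMat_comm362]

theorem inTorus1_one362 : InTorus1 t n (1 : A0.G K) :=
  ⟨inTorus_one362 t n, map_one _⟩

theorem inTorus1_mul362 {m m' : A0.G K} (h : InTorus1 t n m) (h' : InTorus1 t n m') :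
    InTorus1 t n (m * m') :=
  ⟨inTorus_mul362 t n h.1 h'.1, by rw [map_mul, h.2, h'.2, one_mul]⟩

theorem inv_val_of_torus1_362 {m : A0.G K} {a b : A0.Adl K}
    (hm : (m : Matrix (Fin 2) (Fin 2) (A0.Adl K))
      = torMat (algebraMap K (A0.Adl K) t) (algebraMap K (A0.Adl K) n) a b)
    (hdet : Matrix.GeneralLinearGroup.det m = 1) :
    ((m⁻¹ : A0.G K) : Matrix (Fin 2) (Fin 2) (A0.Adl K))
      = torMat (algebraMap K (A0.Adl K) t) (algebraMap K (A0.Adl K) n)
          (a + algebraMap K (A0.Adl K) t * b) (-b) := by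
  have hd : (torMat (algebraMap K (A0.Adl K) t) (algebraMap K (A0.Adl K) n) a b).det = 1 := by
    rw [← hm, ← det_val362, hdet, Units.val_one]
  have h1 := torMat_mul_adj362 (algebraMap K (A0.Adl K) t) (algebraMap K (A0.Adl K) n) a b hd
  rw [← hm] at h1
  exact Units.inv_eq_of_mul_eq_one_right h1

theorem inTorus1_inv362 {m : A0.G K} (h : InTorus1 t n m) : InTorus1 t n m⁻¹ := by
  obtain ⟨⟨a, b, hm⟩, hdet⟩ := h
  exact ⟨⟨_, _, inv_val_of_torus1_362 t n hm hdet⟩, by rw [map_inv, hdet, inv_one]⟩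

theorem inTorusRat_inTorus362 {m : A0.G K} (h : InTorusRat t n m) : InTorus t n m := by
  obtain ⟨a, b, hm⟩ := h
  exact ⟨_, _, hm⟩

theorem inTorusRat_one362 : InTorusRat t n (1 : A0.G K) :=
  ⟨1, 0, by rw [Units.val_one, map_one, map_zero, torMat_one362]⟩

theorem inTorusRat_mul362 {m m' : A0.G K} (h : InTorusRat t n m) (h' : InTorusRat t n m') :
    InTorusRat t n (m * m') := by
  obtain ⟨a, b, hm⟩ := h
  obtain ⟨a', b', hm'⟩ := h'
  refine ⟨a * a' - n * b * b', a * b' + a' * b + t * b * b', ?_⟩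
  rw [Units.val_mul, hm, hm', torMat_mul362]
  simp only [map_sub, map_add, map_mul]

theorem inTorusRat_inv362 {m : A0.G K} (h : InTorusRat t n m)
    (hdet : Matrix.GeneralLinearGroup.det m = 1) : InTorusRat t n m⁻¹ := by
  obtain ⟨a, b, hm⟩ := h
  refine ⟨a + t * b, -b, ?_⟩
  rw [inv_val_of_torus1_362 t n hm hdet]
  simp only [map_add, map_mul, map_neg]

/-- The group `Γ = T¹(K)` of the rational points of the norm-one torus. -/
def gamma362 : Subgroup (A0.G K) where
  carrier := {y | InTorusRat t n y ∧ InTorus1 t n y}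
  mul_mem' := fun ha hb => ⟨inTorusRat_mul362 t n ha.1 hb.1, inTorus1_mul362 t n ha.2 hb.2⟩
  one_mem' := ⟨inTorusRat_one362 t n, inTorus1_one362 t n⟩
  inv_mem' := fun ha => ⟨inTorusRat_inv362 t n ha.1 ha.2.2, inTorus1_inv362 t n ha.2⟩

theorem mem_gamma362 (y : A0.G K) :
    y ∈ gamma362 t n ↔ InTorusRat t n y ∧ InTorus1 t n y := Iff.rfl

instance countable_gamma362 : Countable (gamma362 t n) := by
  have hK : Countable K := Finsupp.Countable.of_moduleFinite (R := ℚ) (M := K)
  refine Set.countable_coe_iff.mpr ?_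
  have hsub : ((gamma362 t n : Subgroup (A0.G K)) : Set (A0.G K)) ⊆
      (fun m : A0.G K => (m : Matrix (Fin 2) (Fin 2) (A0.Adl K))) ⁻¹'
        Set.range (fun p : K × K =>
          torMat (algebraMap K (A0.Adl K) t) (algebraMap K (A0.Adl K) n)
            (algebraMap K (A0.Adl K) p.1) (algebraMap K (A0.Adl K) p.2)) := by
    rintro y ⟨⟨a, b, hy⟩, -⟩
    exact ⟨(a, b), hy.symm⟩
  refine Set.Countable.mono hsub ?_
  have := hK
  exact (Set.countable_range _).preimage_of_injOn (fun x _ y _ h => Units.ext h)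

end Torus

/-! ## Measure theory -/

section Measure

variable {K : Type} [Field K] [NumberField K]

/-- The Borel `σ`-algebra of `GL₂(𝔸_K)` (LOCAL instance of this file; the one of the Spec). -/
local instance borelG362 : MeasurableSpace (A0.G K) := borel (A0.G K)

local instance borelSpaceG362 : BorelSpace (A0.G K) := ⟨rfl⟩

theorem measurable_mulLeft362 (c : A0.G K) : Measurable (fun m : A0.G K => c * m) :=
  (continuous_const_mul c).measurable

theorem measurableEmbedding_mulLeft362 (c : A0.G K) :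
    MeasurableEmbedding (fun m : A0.G K => c * m) :=
  (Homeomorph.mulLeft c).measurableEmbedding

theorem preimage_mulLeft362 (c : A0.G K) (s : Set (A0.G K)) :
    (fun m : A0.G K => c * m) ⁻¹' s = (fun m : A0.G K => c⁻¹ * m) '' s := by
  ext x
  constructor
  · intro hx
    exact ⟨c * x, hx, inv_mul_cancel_left c x⟩
  · rintro ⟨y, hy, rfl⟩
    show c * (c⁻¹ * y) ∈ s
    rw [mul_inv_cancel_left]
    exact hy

variable (D : KData K)

theorem measurePreserving_mulLeft362 (hM : D.IsMeasured) {c : A0.G K}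
    (hc : InTorus1 D.t D.n c) :
    MeasurePreserving (fun m : A0.G K => c * m) D.μT D.μT := by
  refine ⟨measurable_mulLeft362 c, ?_⟩
  refine Measure.ext fun s hs => ?_
  rw [Measure.map_apply (measurable_mulLeft362 c) hs, preimage_mulLeft362]
  exact hM.inv c⁻¹ (inTorus1_inv362 D.t D.n hc) s

local instance measurableConstSMul362 : MeasurableConstSMul (gamma362 D.t D.n) (A0.G K) :=
  ⟨fun c => measurable_mulLeft362 (c : A0.G K)⟩

theorem smulInvariant362 (hM : D.IsMeasured) :
    SMulInvariantMeasure (gamma362 D.t D.n) (A0.G K) D.μT :=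
  ⟨fun c s hs => by
    have h := (measurePreserving_mulLeft362 D hM c.2.2).measure_preimage hs.nullMeasurableSet
    exact h⟩

theorem ae_inTorus1_362 (hM : D.IsMeasured) : ∀ᵐ x ∂D.μT, InTorus1 D.t D.n x := by
  have h := hM.carried
  rw [measure_eq_zero_iff_ae_notMem] at h
  filter_upwards [h] with x hx
  by_contra hcon
  exact hx hcon

/-- `m' DT` is a fundamental domain of `Γ = T¹(K)` for every `m' ∈ T¹(𝔸_K)`. -/
theorem isFundamentalDomain362 (hM : D.IsMeasured) {c : A0.G K} (hc : InTorus1 D.t D.n c) :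
    IsFundamentalDomain (gamma362 D.t D.n) ((fun m : A0.G K => c * m) '' D.DT) D.μT where
  nullMeasurableSet :=
    ((measurableEmbedding_mulLeft362 c).measurableSet_image.2 hM.dom_meas).nullMeasurableSet
  ae_covers := by
    filter_upwards [ae_inTorus1_362 D hM] with x hx
    have hx' : InTorus1 D.t D.n (c⁻¹ * x) :=
      inTorus1_mul362 D.t D.n (inTorus1_inv362 D.t D.n hc) hx
    obtain ⟨y, ⟨hy1, hy2, hy3⟩, -⟩ := hM.dom_fund (c⁻¹ * x) hx'
    refine ⟨⟨y, hy1, hy2⟩, y * (c⁻¹ * x), hy3, ?_⟩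
    show c * (y * (c⁻¹ * x)) = y * x
    rw [← mul_assoc, inTorus_comm362 D.t D.n hc.1 hy2.1, mul_assoc, mul_inv_cancel_left]
  aedisjoint := by
    intro g g' hgg'
    refine Disjoint.aedisjoint (Set.disjoint_left.2 ?_)
    rintro x ⟨_, ⟨d, hd, rfl⟩, hx1⟩ ⟨_, ⟨d', hd', rfl⟩, hx2⟩
    apply hgg'
    have hx1' : (g : A0.G K) * (c * d) = x := hx1
    have hx2' : (g' : A0.G K) * (c * d') = x := hx2
    have hgd : (g : A0.G K) * d = (g' : A0.G K) * d' := by
      have e1 : c * ((g : A0.G K) * d) = x := by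
        rw [← mul_assoc, inTorus_comm362 D.t D.n hc.1 g.2.2.1, mul_assoc]
        exact hx1'
      have e2 : c * ((g' : A0.G K) * d') = x := by
        rw [← mul_assoc, inTorus_comm362 D.t D.n hc.1 g'.2.2.1, mul_assoc]
        exact hx2'
      exact mul_left_cancel (e1.trans e2.symm)
    obtain ⟨y, -, huniq⟩ := hM.dom_fund d (hM.dom_sub d hd)
    have h1 : (1 : A0.G K) = y :=
      huniq 1 ⟨inTorusRat_one362 D.t D.n, inTorus1_one362 D.t D.n, by rw [one_mul]; exact hd⟩
    have hmem : ((g' : A0.G K)⁻¹ * (g : A0.G K)) ∈ gamma362 D.t D.n :=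
      (gamma362 D.t D.n).mul_mem ((gamma362 D.t D.n).inv_mem g'.2) g.2
    have h2 : (g' : A0.G K)⁻¹ * (g : A0.G K) = y := by
      refine huniq _ ⟨hmem.1, hmem.2, ?_⟩
      rw [mul_assoc, hgd, inv_mul_cancel_left]
      exact hd'
    apply Subtype.ext
    have h3 : (g' : A0.G K)⁻¹ * (g : A0.G K) = 1 := h2.trans h1.symm
    exact (inv_mul_eq_one.1 h3).symm

theorem image_one362 (S : Set (A0.G K)) : (fun m : A0.G K => (1 : A0.G K) * m) '' S = S := by
  simp only [one_mul, Set.image_id']

/-- The torus character cut off outside the norm-one torus: a `Γ`-invariant function. -/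
def chiCut362 : A0.G K → ℂ := Set.indicator {m | InTorus1 D.t D.n m} D.χT

theorem chiCut_of_mem362 {x : A0.G K} (hx : InTorus1 D.t D.n x) : chiCut362 D x = D.χT x :=
  Set.indicator_of_mem (s := {m | InTorus1 D.t D.n m}) hx D.χT

theorem chiCut_smul362 (hT : IsTorusChar D.t D.n D.χT) (g : gamma362 D.t D.n) (x : A0.G K) :
    chiCut362 D (g • x) = chiCut362 D x := by
  show chiCut362 D ((g : A0.G K) * x) = chiCut362 D x
  by_cases hx : InTorus1 D.t D.n x
  · rw [chiCut_of_mem362 D hx, chiCut_of_mem362 D (inTorus1_mul362 D.t D.n g.2.2 hx),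
      hT.mul _ _ g.2.2.1 hx.1, hT.rat _ g.2.1, one_mul]
  · have hgx : ¬ InTorus1 D.t D.n ((g : A0.G K) * x) := by
      intro h
      apply hx
      have := inTorus1_mul362 D.t D.n (inTorus1_inv362 D.t D.n g.2.2) h
      rwa [inv_mul_cancel_left] at this
    unfold chiCut362
    rw [Set.indicator_of_notMem (s := {m | InTorus1 D.t D.n m}) hx,
      Set.indicator_of_notMem (s := {m | InTorus1 D.t D.n m}) hgx]

theorem norm_chi362 (hT : IsTorusChar D.t D.n D.χT) {m : A0.G K} (hm : InTorus D.t D.n m) :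
    ‖D.χT m‖ = 1 := by
  obtain ⟨k, hk, hpow⟩ := hT.fin_order
  have h := hpow m hm
  have h1 : ‖D.χT m‖ ^ k = 1 := by rw [← norm_pow, h, norm_one]
  exact (pow_eq_one_iff_of_nonneg (norm_nonneg _) hk.ne').1 h1

theorem integrableOn_chi362 (hT : IsTorusChar D.t D.n D.χT) (hM : D.IsMeasured) :
    IntegrableOn D.χT D.DT D.μT := by
  obtain ⟨C, hC, hsub⟩ := hM.dom_compact
  have hfin : D.μT D.DT < ⊤ := lt_of_le_of_lt (measure_mono hsub) (hM.compact_lt C hC)
  have hcont : ContinuousOn D.χT D.DT :=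
    hT.cont.mono fun m hm => (hM.dom_sub m hm).1
  have hmeas : AEStronglyMeasurable D.χT (D.μT.restrict D.DT) :=
    hcont.aestronglyMeasurable hM.dom_meas
  have hfm : IsFiniteMeasure (D.μT.restrict D.DT) :=
    ⟨by rw [Measure.restrict_apply_univ]; exact hfin⟩
  refine Integrable.of_bound (μ := D.μT.restrict D.DT) hmeas 1 ?_
  rw [ae_restrict_iff' hM.dom_meas]
  exact Filter.Eventually.of_forall fun m hm => (norm_chi362 D hT (hM.dom_sub m hm).1).le

theorem setIntegral_chi_eq_zero362 (hT : IsTorusChar D.t D.n D.χT) (hM : D.IsMeasured) :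
    ∫ m in D.DT, D.χT m ∂D.μT = 0 := by
  obtain ⟨c, hc, hne⟩ := hT.nontriv
  have hinv := smulInvariant362 D hM
  have hfd1 : IsFundamentalDomain (gamma362 D.t D.n) D.DT D.μT := by
    have := isFundamentalDomain362 D hM (inTorus1_one362 D.t D.n)
    rwa [image_one362] at this
  have hfdc := isFundamentalDomain362 D hM hc
  -- the two domains carry the same integral of the cut-off character
  have h1 : ∫ m in D.DT, chiCut362 D m ∂D.μT
      = ∫ m in (fun m : A0.G K => c * m) '' D.DT, chiCut362 D m ∂D.μT :=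
    hfd1.setIntegral_eq hfdc (chiCut_smul362 D hT)
  have h2 : ∫ m in D.DT, chiCut362 D m ∂D.μT = ∫ m in D.DT, D.χT m ∂D.μT :=
    setIntegral_congr_fun hM.dom_meas fun m hm => chiCut_of_mem362 D (hM.dom_sub m hm)
  have h3 : ∫ m in (fun m : A0.G K => c * m) '' D.DT, chiCut362 D m ∂D.μT
      = ∫ m in D.DT, chiCut362 D (c * m) ∂D.μT :=
    (measurePreserving_mulLeft362 D hM hc).setIntegral_image_emb
      (measurableEmbedding_mulLeft362 c) _ _
  have h4 : ∫ m in D.DT, chiCut362 D (c * m) ∂D.μT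
      = ∫ m in D.DT, D.χT c * D.χT m ∂D.μT :=
    setIntegral_congr_fun hM.dom_meas fun m hm => by
      show chiCut362 D (c * m) = D.χT c * D.χT m
      rw [chiCut_of_mem362 D (inTorus1_mul362 D.t D.n hc (hM.dom_sub m hm)),
        hT.mul _ _ hc.1 (hM.dom_sub m hm).1]
  have h5 : ∫ m in D.DT, D.χT c * D.χT m ∂D.μT = D.χT c * ∫ m in D.DT, D.χT m ∂D.μT :=
    integral_const_mul _ _
  have key : ∫ m in D.DT, D.χT m ∂D.μT = D.χT c * ∫ m in D.DT, D.χT m ∂D.μT :=
    h2.symm.trans (h1.trans (h3.trans (h4.trans h5)))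
  have h6 : (1 - D.χT c) * ∫ m in D.DT, D.χT m ∂D.μT = 0 := by
    rw [sub_mul, one_mul, ← key, sub_self]
  rcases mul_eq_zero.1 h6 with h | h
  · exact absurd (sub_eq_zero.1 h).symm hne
  · exact h

end Measure

/-- **A2.03.4.3 CHAR-INT-ZERO.** -/
theorem charIntZeroC362 : H904.CharIntZeroC := by
  intro K _ _ D _ hG
  exact ⟨integrableOn_chi362 D hG.torus hG.measured,
    setIntegral_chi_eq_zero362 D hG.torus hG.measured⟩

end Fermat.Agent.LT.A2.H362

end
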